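import Fermat.Agent.RT.Base.BdSum

/-!
# BASE-BRIDGE, boundary (4): the representatives adapted to a parabolic element

`g = σ Tᵐ σ⁻¹`, `N ∣ σ₁₀ σ₁₁`.  The matrices `B_∞ = σ diag(ℓ, 1) σ⁻¹`,
`B_j = σ [[1, j N], [0, ℓ]] σ⁻¹` (`j ∈ 𝔽_ℓ`) have determinant `ℓ` and lower left entry divisible
by `N`, are pairwise inequivalent modulo `SL(2, ℤ)`, and
`B_∞ g^ℓ = g^(ℓ²) B_∞`, `B_j g^ℓ = g B_j`.
-/

set_option autoImplicit false

noncomputable section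

namespace Fermat.Agent.RT.Base

open Matrix Matrix.SpecialLinearGroup CongruenceSubgroup ModularForm OnePoint
open P2MW.S_ModularForm_heckeT_slash_eq_self_of_mem_Gamma0.ModularForm.HeckeSlashInvariance
open Fermat.Agent.ES.HeckeP
open scoped MatrixGroups

/-- the upper triangular representatives `diag(ℓ, 1)`, `[[1, j N], [0, ℓ]]` -/
def rtbbA (ℓ N : ℕ) (y : OnePoint (ZMod ℓ)) : Matrix (Fin 2) (Fin 2) ℤ :=
  y.elim !![(ℓ : ℤ), 0; 0, 1] (fun j => !![1, (j.val : ℤ) * N; 0, (ℓ : ℤ)])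

theorem rtbbA_infty (ℓ N : ℕ) : rtbbA ℓ N ∞ = !![(ℓ : ℤ), 0; 0, 1] := rfl

theorem rtbbA_coe (ℓ N : ℕ) (j : ZMod ℓ) :
    rtbbA ℓ N (j : OnePoint (ZMod ℓ)) = !![1, (j.val : ℤ) * N; 0, (ℓ : ℤ)] := rfl

/-- the exponent of `g` attached to `y`: `g^(ℓ²)` for `∞`, `g` otherwise -/
def rtbbE (ℓ : ℕ) (y : OnePoint (ZMod ℓ)) : ℕ := y.elim (ℓ ^ 2) (fun _ => 1)

theorem rtbbE_infty (ℓ : ℕ) : rtbbE ℓ ∞ = ℓ ^ 2 := rfl

theorem rtbbE_coe (ℓ : ℕ) (j : ZMod ℓ) : rtbbE ℓ (j : OnePoint (ZMod ℓ)) = 1 := rfl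

theorem rtbb_coe_inv_mul (σ : SL(2, ℤ)) :
    ((σ⁻¹ : SL(2, ℤ)) : Matrix (Fin 2) (Fin 2) ℤ) * (σ : Matrix (Fin 2) (Fin 2) ℤ) = 1 := by
  rw [← Matrix.SpecialLinearGroup.coe_mul, inv_mul_cancel, Matrix.SpecialLinearGroup.coe_one]

theorem rtbb_coe_mul_inv (σ : SL(2, ℤ)) :
    (σ : Matrix (Fin 2) (Fin 2) ℤ) * ((σ⁻¹ : SL(2, ℤ)) : Matrix (Fin 2) (Fin 2) ℤ) = 1 := by
  rw [← Matrix.SpecialLinearGroup.coe_mul, mul_inv_cancel, Matrix.SpecialLinearGroup.coe_one]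

/-- conjugation by `σ` of integer matrices -/
def rtbbC (σ : SL(2, ℤ)) (X : Matrix (Fin 2) (Fin 2) ℤ) : Matrix (Fin 2) (Fin 2) ℤ :=
  (σ : Matrix (Fin 2) (Fin 2) ℤ) * X * ((σ⁻¹ : SL(2, ℤ)) : Matrix (Fin 2) (Fin 2) ℤ)

theorem rtbbC_mul (σ : SL(2, ℤ)) (X Y : Matrix (Fin 2) (Fin 2) ℤ) :
    rtbbC σ X * rtbbC σ Y = rtbbC σ (X * Y) := by
  unfold rtbbC
  calc (σ : Matrix (Fin 2) (Fin 2) ℤ) * X * ((σ⁻¹ : SL(2, ℤ)) : Matrix (Fin 2) (Fin 2) ℤ) *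
        ((σ : Matrix (Fin 2) (Fin 2) ℤ) * Y * ((σ⁻¹ : SL(2, ℤ)) : Matrix (Fin 2) (Fin 2) ℤ))
      = (σ : Matrix (Fin 2) (Fin 2) ℤ) * X *
          (((σ⁻¹ : SL(2, ℤ)) : Matrix (Fin 2) (Fin 2) ℤ) * (σ : Matrix (Fin 2) (Fin 2) ℤ)) * Y *
            ((σ⁻¹ : SL(2, ℤ)) : Matrix (Fin 2) (Fin 2) ℤ) := by
        simp only [Matrix.mul_assoc]
    _ = _ := by rw [rtbb_coe_inv_mul, Matrix.mul_one, Matrix.mul_assoc _ X Y]

theorem rtbbC_det (σ : SL(2, ℤ)) (X : Matrix (Fin 2) (Fin 2) ℤ) : (rtbbC σ X).det = X.det := by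
  unfold rtbbC
  rw [Matrix.det_mul, Matrix.det_mul, σ.det_coe, (σ⁻¹).det_coe, one_mul, mul_one]

/-- the lower left entry of a conjugate of an upper triangular matrix -/
theorem rtbbC_entry (σ : SL(2, ℤ)) (p q s : ℤ) :
    rtbbC σ !![p, q; 0, s] 1 0 = σ 1 0 * σ 1 1 * (p - s) - σ 1 0 ^ 2 * q := by
  unfold rtbbC
  simp only [Matrix.SpecialLinearGroup.coe_inv, Matrix.adjugate_fin_two, Matrix.mul_apply,
    Fin.sum_univ_two, Matrix.of_apply, Matrix.cons_val', Matrix.cons_val_zero,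
    Matrix.cons_val_one, Matrix.empty_val', Matrix.cons_val_fin_one]
  ring

/-- the element of `SL(2, ℤ)` as a conjugate -/
theorem rtbb_coe_conj (σ : SL(2, ℤ)) (m : ℤ) (k : ℕ) (g : SL(2, ℤ))
    (hg : g = σ * ModularGroup.T ^ m * σ⁻¹) :
    ((g ^ k : SL(2, ℤ)) : Matrix (Fin 2) (Fin 2) ℤ) = rtbbC σ !![1, m * k; 0, 1] := by
  have h1 : g ^ k = σ * ModularGroup.T ^ (m * k) * σ⁻¹ := by
    rw [hg, conj_pow, _root_.zpow_mul, zpow_natCast]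
  rw [h1, Matrix.SpecialLinearGroup.coe_mul, Matrix.SpecialLinearGroup.coe_mul,
    ModularGroup.coe_T_zpow]
  rfl

variable {ℓ N : ℕ} [Fact ℓ.Prime]

omit [Fact ℓ.Prime] in
theorem rtbbA_det (y : OnePoint (ZMod ℓ)) : (rtbbA ℓ N y).det = ℓ := by
  induction y using OnePoint.rec with
  | infty => rw [rtbbA_infty, Matrix.det_fin_two_of]; ring
  | coe j => rw [rtbbA_coe, Matrix.det_fin_two_of]; ring

omit [Fact ℓ.Prime] in
/-- `N` divides the lower left entry of `σ A_y σ⁻¹` -/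
theorem rtbb_dvd_entry (σ : SL(2, ℤ)) (hσ : (N : ℤ) ∣ σ 1 0 * σ 1 1) (y : OnePoint (ZMod ℓ)) :
    (N : ℤ) ∣ rtbbC σ (rtbbA ℓ N y) 1 0 := by
  induction y using OnePoint.rec with
  | infty =>
    rw [rtbbA_infty, rtbbC_entry, mul_zero, sub_zero]
    exact Dvd.dvd.mul_right hσ _
  | coe j =>
    rw [rtbbA_coe, rtbbC_entry]
    refine dvd_sub (Dvd.dvd.mul_right hσ _) ?_
    exact Dvd.dvd.mul_left (Dvd.intro_left _ rfl) _

omit [Fact ℓ.Prime] in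
/-- the relations `A_y U^(mℓ) = U^(m e_y) A_y` -/
theorem rtbbA_rel (m : ℤ) (y : OnePoint (ZMod ℓ)) :
    rtbbA ℓ N y * !![1, m * (ℓ : ℕ); 0, 1] = !![1, m * (rtbbE ℓ y : ℕ); 0, 1] * rtbbA ℓ N y := by
  induction y using OnePoint.rec with
  | infty =>
    rw [rtbbA_infty, rtbbE_infty]
    ext i j
    fin_cases i <;> fin_cases j <;> simp [Matrix.mul_apply, Fin.sum_univ_two] <;> ring
  | coe j =>
    rw [rtbbA_coe, rtbbE_coe]
    ext i k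
    fin_cases i <;> fin_cases k <;> simp [Matrix.mul_apply, Fin.sum_univ_two, -ZMod.natCast_val]
      <;> ring

/-- the representatives are pairwise inequivalent modulo `SL(2, ℤ)` -/
theorem rtbbA_inj (hℓN : ¬ ℓ ∣ N) (y y' : OnePoint (ZMod ℓ)) (γ : SL(2, ℤ))
    (h : rtbbA ℓ N y = (γ : Matrix (Fin 2) (Fin 2) ℤ) * rtbbA ℓ N y') : y = y' := by
  have hℓ : (ℓ : ℕ).Prime := Fact.out
  have hℓ1 : ¬ (ℓ : ℤ) ∣ 1 := by
    intro h1
    have := Int.natCast_dvd_natCast.mp (by simpa using h1 : ((ℓ : ℕ) : ℤ) ∣ ((1 : ℕ) : ℤ))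
    exact hℓ.one_lt.ne' (Nat.dvd_one.mp this)
  induction y using OnePoint.rec with
  | infty =>
    induction y' using OnePoint.rec with
    | infty => rfl
    | coe j' =>
      exfalso
      rw [rtbbA_infty, rtbbA_coe] at h
      have h10 := congrFun (congrFun h 1) 0
      have h11 := congrFun (congrFun h 1) 1
      simp [Matrix.mul_apply, Fin.sum_univ_two, -ZMod.natCast_val] at h10 h11
      rw [← h10] at h11
      exact hℓ1 ⟨γ 1 1, by linear_combination h11⟩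
  | coe j =>
    induction y' using OnePoint.rec with
    | infty =>
      exfalso
      rw [rtbbA_infty, rtbbA_coe] at h
      have h00 := congrFun (congrFun h 0) 0
      simp [Matrix.mul_apply, Fin.sum_univ_two, -ZMod.natCast_val] at h00
      exact hℓ1 ⟨γ 0 0, by linear_combination h00⟩
    | coe j' =>
      rw [rtbbA_coe, rtbbA_coe] at h
      have h00 := congrFun (congrFun h 0) 0
      have h01 := congrFun (congrFun h 0) 1
      simp [Matrix.mul_apply, Fin.sum_univ_two, -ZMod.natCast_val] at h00 h01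
      rw [← h00] at h01
      have hdvd : (ℓ : ℤ) ∣ ((j.val : ℤ) - (j'.val : ℤ)) * N := ⟨γ 0 1, by linear_combination h01⟩
      have hcop : IsCoprime (ℓ : ℤ) (N : ℤ) :=
        Nat.isCoprime_iff_coprime.mpr ((Nat.Prime.coprime_iff_not_dvd hℓ).mpr hℓN)
      have hdvd' : (ℓ : ℤ) ∣ (j.val : ℤ) - (j'.val : ℤ) := hcop.dvd_of_dvd_mul_right hdvd
      have := (ZMod.intCast_zmod_eq_zero_iff_dvd _ _).mpr hdvd'
      push_cast at this
      rw [ZMod.natCast_zmod_val, ZMod.natCast_zmod_val, sub_eq_zero] at this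
      rw [this]

end Fermat.Agent.RT.Base
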