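import Mathlib
import Fermat.Agent.ES.HeckePPar

/-!
# BASE-BRIDGE, boundary (1): integer matrices

* `rtbb_exists_conj` : an element `g` of trace `2` of `SL(2, ℤ)` is `σ Tᵐ σ⁻¹`, and for a
  squarefree `N` the matrix `σ` can be chosen with `N ∣ σ₁₀ σ₁₁`;
* `rtbb_exists_rep` : every integer matrix of determinant `ℓ` with `N ∣ c` is `γ α_x` with
  `γ ∈ Γ₀(N)` and `α_x` one of the standard representatives (`heckeRep ℓ x`).
-/

set_option autoImplicit false

noncomputable section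

namespace Fermat.Agent.RT.Base

open Matrix Matrix.SpecialLinearGroup CongruenceSubgroup
open P2MW.S_ModularForm_heckeT_slash_eq_self_of_mem_Gamma0.ModularForm.HeckeSlashInvariance
open scoped MatrixGroups

/-- the determinant relation of an element of `SL(2, ℤ)` -/
theorem rtbb_det (g : SL(2, ℤ)) : g 0 0 * g 1 1 - g 0 1 * g 1 0 = 1 := by
  have h := g.det_coe
  rwa [Matrix.det_fin_two] at h

/-- an element of trace `2` fixes a primitive vector -/
theorem rtbb_exists_fixed (g : SL(2, ℤ)) (hg : g 0 0 + g 1 1 = 2) :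
    ∃ a c : ℤ, IsCoprime a c ∧ g 0 0 * a + g 0 1 * c = a ∧ g 1 0 * a + g 1 1 * c = c := by
  have hdet := rtbb_det g
  by_cases hy : g 0 1 = 0
  · -- then `g 0 0 = 1 = g 1 1`
    have hx : (g 0 0 - 1) ^ 2 = 0 := by
      have : (g 0 0 - 1) ^ 2 = - (g 0 1 * g 1 0) := by
        have h11 : g 1 1 = 2 - g 0 0 := by linarith
        rw [h11] at hdet
        linear_combination -hdet
      rw [this, hy, zero_mul, neg_zero]
    have hx' : g 0 0 = 1 := by
      have := pow_eq_zero_iff (two_ne_zero) |>.mp hx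
      linarith
    have h11 : g 1 1 = 1 := by linarith
    refine ⟨0, 1, isCoprime_zero_left.mpr isUnit_one, ?_, ?_⟩
    · rw [hy]; ring
    · rw [h11]; ring
  · -- `v = (y, -x) / gcd`
    have hgpos : 0 < Int.gcd (g 0 0 - 1) (g 0 1) := Int.gcd_pos_of_ne_zero_right _ hy
    obtain ⟨x', y', hcop, hx, hy'⟩ := Int.exists_gcd_one hgpos
    set d₀ : ℤ := (Int.gcd (g 0 0 - 1) (g 0 1) : ℤ) with hd₀
    have hd₀ne : d₀ ≠ 0 := by
      rw [hd₀]; exact_mod_cast hgpos.ne'
    have hcop' : IsCoprime y' (-x') := by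
      have : IsCoprime x' y' := Int.isCoprime_iff_gcd_eq_one.mpr hcop
      exact this.symm.neg_right
    refine ⟨y', -x', hcop', ?_, ?_⟩
    · have h1 : g 0 0 = 1 + x' * d₀ := by linarith
      rw [h1, hy']
      ring
    · -- multiply by `d₀`
      have h1 : g 0 0 = 1 + x' * d₀ := by linarith
      have h11 : g 1 1 = 1 - x' * d₀ := by linarith
      have key : d₀ * (g 1 0 * y' + g 1 1 * -x' - -x') = 0 := by
        rw [h11]
        rw [h1, h11, hy'] at hdet
        linear_combination -hdet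
      rcases mul_eq_zero.mp key with h | h
      · exact absurd h hd₀ne
      · linarith

/-- for a squarefree `N` a primitive vector `(a, c)` is the first column of a `σ ∈ SL(2, ℤ)`
with `N ∣ σ₁₀ σ₁₁` -/
theorem rtbb_exists_sigma {N : ℕ} (hN : Squarefree N) (a c : ℤ) (hac : IsCoprime a c) :
    ∃ σ : SL(2, ℤ), σ 0 0 = a ∧ σ 1 0 = c ∧ (N : ℤ) ∣ σ 1 0 * σ 1 1 := by
  obtain ⟨u, v, huv⟩ := hac
  -- `N = N₁ N₂`, `N₁ = gcd (N, c)`
  set N₁ : ℕ := Nat.gcd N c.natAbs with hN₁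
  obtain ⟨N₂, hN₂⟩ : N₁ ∣ N := Nat.gcd_dvd_left _ _
  have hsq : Squarefree (N₁ * N₂) := hN₂ ▸ hN
  have hcop12 : Nat.Coprime N₁ N₂ := (Nat.squarefree_mul_iff.mp hsq).1
  have hcop2c : Nat.Coprime N₂ c.natAbs := by
    have h1 : Nat.gcd N₂ c.natAbs ∣ N₁ := by
      rw [hN₁]
      refine Nat.dvd_gcd ?_ (Nat.gcd_dvd_right _ _)
      rw [hN₂]
      exact (Nat.gcd_dvd_left _ _).trans (dvd_mul_left _ _)
    have h2 : Nat.gcd N₂ c.natAbs ∣ N₂ := Nat.gcd_dvd_left _ _
    have h3 : Nat.gcd N₂ c.natAbs ∣ Nat.gcd N₁ N₂ := Nat.dvd_gcd h1 h2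
    rw [hcop12] at h3
    exact Nat.dvd_one.mp h3
  have hcop2c' : IsCoprime (N₂ : ℤ) c := by
    rw [Int.isCoprime_iff_gcd_eq_one, Int.gcd_def, Int.natAbs_natCast]
    exact hcop2c
  obtain ⟨u', v', huv'⟩ := hcop2c'
  have hN₁c : (N₁ : ℤ) ∣ c := by
    have : N₁ ∣ c.natAbs := Nat.gcd_dvd_right _ _
    exact Int.natCast_dvd.mpr this
  -- `d₀ = u`, `b₀ = -v`, `j = - d₀ v'`
  refine ⟨⟨!![a, -v + (-(u * v')) * a; c, u + (-(u * v')) * c], ?_⟩, rfl, rfl, ?_⟩
  · rw [Matrix.det_fin_two_of]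
    linear_combination huv
  · show (N : ℤ) ∣ c * (u + (-(u * v')) * c)
    have h2 : (N₂ : ℤ) ∣ u + (-(u * v')) * c := by
      refine ⟨u * u', ?_⟩
      linear_combination (-u) * huv'
    rw [hN₂]
    push_cast
    exact mul_dvd_mul hN₁c h2

/-- **an element of trace `2` is conjugate to a power of `T`**, by a `σ` with `N ∣ σ₁₀ σ₁₁`
(`N` squarefree). -/
theorem rtbb_exists_conj {N : ℕ} (hN : Squarefree N) (g : SL(2, ℤ)) (hg : g 0 0 + g 1 1 = 2) :
    ∃ (σ : SL(2, ℤ)) (m : ℤ), g = σ * ModularGroup.T ^ m * σ⁻¹ ∧ (N : ℤ) ∣ σ 1 0 * σ 1 1 := by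
  obtain ⟨a, c, hac, h1, h2⟩ := rtbb_exists_fixed g hg
  obtain ⟨σ, hσa, hσc, hσN⟩ := rtbb_exists_sigma hN a c hac
  have hdσ := rtbb_det σ
  have hdg := rtbb_det g
  set h : SL(2, ℤ) := σ⁻¹ * g * σ with hh
  have hdh := rtbb_det h
  have h00 : h 0 0 = 1 := by
    rw [hh]
    simp only [Matrix.SpecialLinearGroup.coe_mul, Matrix.SpecialLinearGroup.coe_inv,
      Matrix.adjugate_fin_two, Matrix.mul_apply, Fin.sum_univ_two, Matrix.of_apply,
      Matrix.cons_val', Matrix.cons_val_zero, Matrix.cons_val_one, Matrix.empty_val',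
      Matrix.cons_val_fin_one]
    rw [hσa, hσc] at *
    linear_combination (σ 1 1) * h1 - (σ 0 1) * h2 + hdσ
  have h10 : h 1 0 = 0 := by
    rw [hh]
    simp only [Matrix.SpecialLinearGroup.coe_mul, Matrix.SpecialLinearGroup.coe_inv,
      Matrix.adjugate_fin_two, Matrix.mul_apply, Fin.sum_univ_two, Matrix.of_apply,
      Matrix.cons_val', Matrix.cons_val_zero, Matrix.cons_val_one, Matrix.empty_val',
      Matrix.cons_val_fin_one]
    rw [hσa, hσc] at *
    linear_combination (-c) * h1 + a * h2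
  have h11 : h 1 1 = 1 := by
    rw [h00, h10] at hdh
    linarith
  have hT : h = ModularGroup.T ^ (h 0 1) := by
    apply Subtype.ext
    rw [ModularGroup.coe_T_zpow]
    ext i j
    fin_cases i <;> fin_cases j
    · exact h00
    · rfl
    · exact h10
    · exact h11
  refine ⟨σ, h 0 1, ?_, hσN⟩
  rw [← hT, hh]
  group

end Fermat.Agent.RT.Base
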