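import Fermat.Agent.RT.Base.BdMat

/-!
# BASE-BRIDGE, boundary (2): the coset decomposition `Δ_ℓ = ⊔ Γ₀(N) α_x`
-/

set_option autoImplicit false

noncomputable section

namespace Fermat.Agent.RT.Base

open Matrix Matrix.SpecialLinearGroup CongruenceSubgroup ModularForm OnePoint
open P2MW.S_ModularForm_heckeT_slash_eq_self_of_mem_Gamma0.ModularForm.HeckeSlashInvariance
open scoped MatrixGroups

variable {ℓ N : ℕ} [Fact ℓ.Prime]

omit [Fact ℓ.Prime] in
theorem rtbb_mapGL_coe (g : SL(2, ℤ)) :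
    ((mapGL ℝ g : GL (Fin 2) ℝ) : Matrix (Fin 2) (Fin 2) ℝ) =
      (g : Matrix (Fin 2) (Fin 2) ℤ).map (algebraMap ℤ ℝ) :=
  Matrix.SpecialLinearGroup.mapGL_coe_matrix g

omit [Fact ℓ.Prime] in
theorem rtbb_mapGL_mk (M : Matrix (Fin 2) (Fin 2) ℤ) (hM : M.det = 1) :
    ((mapGL ℝ (⟨M, hM⟩ : SL(2, ℤ)) : GL (Fin 2) ℝ) : Matrix (Fin 2) (Fin 2) ℝ) =
      M.map (algebraMap ℤ ℝ) := by
  exact Matrix.SpecialLinearGroup.mapGL_coe_matrix _

/-- **coset decomposition**: an integer matrix of determinant `ℓ` with `N ∣ c` is `γ α_x` with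
`γ ∈ Γ₀(N)`. -/
theorem rtbb_exists_rep (hℓN : ¬ ℓ ∣ N) (a b c d : ℤ) (hdet : a * d - b * c = ℓ)
    (hc : (N : ℤ) ∣ c) :
    ∃ (x : OnePoint (ZMod ℓ)) (γ : SL(2, ℤ)), (N : ℤ) ∣ γ 1 0 ∧
      (!![a, b; c, d] : Matrix (Fin 2) (Fin 2) ℤ).map (algebraMap ℤ ℝ) =
        ((mapGL ℝ γ : GL (Fin 2) ℝ) : Matrix (Fin 2) (Fin 2) ℝ) *
          ((heckeRep ℓ x : GL (Fin 2) ℝ) : Matrix (Fin 2) (Fin 2) ℝ) := by
  have hp : ℓ ≠ 0 := (Fact.out : ℓ.Prime).ne_zero
  have hℓ0 : (ℓ : ℤ) ≠ 0 := by exact_mod_cast hp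
  have hdetZ : ((a : ZMod ℓ)) * d - b * c = 0 := by
    have := congrArg (Int.cast : ℤ → ZMod ℓ) hdet
    push_cast at this
    rw [this]
    exact ZMod.natCast_self ℓ
  by_cases hac : ((a : ℤ) : ZMod ℓ) = 0 ∧ ((c : ℤ) : ZMod ℓ) = 0
  · -- `x = ∞`
    obtain ⟨a', ha'⟩ := (ZMod.intCast_zmod_eq_zero_iff_dvd _ _).mp hac.1
    obtain ⟨c', hc'⟩ := (ZMod.intCast_zmod_eq_zero_iff_dvd _ _).mp hac.2
    have hd1 : a' * d - b * c' = 1 := by
      have : (ℓ : ℤ) * (a' * d - b * c' - 1) = 0 := by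
        rw [ha', hc'] at hdet
        linear_combination hdet
      rcases mul_eq_zero.mp this with h | h
      · exact absurd h hℓ0
      · linarith
    refine ⟨∞, ⟨!![a', b; c', d], ?_⟩, ?_, ?_⟩
    · rw [Matrix.det_fin_two_of]; exact hd1
    · show (N : ℤ) ∣ c'
      have hcop : IsCoprime (N : ℤ) (ℓ : ℤ) :=
        Nat.isCoprime_iff_coprime.mpr ((Nat.Prime.coprime_iff_not_dvd Fact.out).mpr hℓN).symm
      exact hcop.dvd_of_dvd_mul_left (hc' ▸ hc)
    · rw [heckeRep_infty, rtbb_mapGL_mk, val_heckeDiagMatrix hp, ha', hc']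
      ext i j
      fin_cases i <;> fin_cases j <;>
        simp [Matrix.mul_apply, Fin.sum_univ_two, mul_comm]
  · -- `x = j`
    obtain ⟨j, hj1, hj2⟩ : ∃ j : ZMod ℓ, (a : ZMod ℓ) * j = b ∧ (c : ZMod ℓ) * j = d := by
      by_cases ha : ((a : ℤ) : ZMod ℓ) = 0
      · have hc0 : ((c : ℤ) : ZMod ℓ) ≠ 0 := fun h => hac ⟨ha, h⟩
        refine ⟨(d : ZMod ℓ) / c, ?_, mul_div_cancel₀ _ hc0⟩
        rw [ha, zero_mul]
        rw [ha, zero_mul, zero_sub, neg_eq_zero] at hdetZ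
        rcases mul_eq_zero.mp hdetZ with h | h
        · exact h.symm
        · exact absurd h hc0
      · refine ⟨(b : ZMod ℓ) / a, mul_div_cancel₀ _ ha, ?_⟩
        have : (a : ZMod ℓ) * ((c : ZMod ℓ) * ((b : ZMod ℓ) / a) - d) = 0 := by
          have h1 : (a : ZMod ℓ) * ((b : ZMod ℓ) / a) = b := mul_div_cancel₀ _ ha
          linear_combination (c : ZMod ℓ) * h1 - hdetZ
        rcases mul_eq_zero.mp this with h | h
        · exact absurd h ha
        · exact sub_eq_zero.mp h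
    obtain ⟨e, he⟩ : (ℓ : ℤ) ∣ b - a * j.val := by
      rw [← ZMod.intCast_zmod_eq_zero_iff_dvd]
      push_cast
      rw [ZMod.natCast_zmod_val, hj1, sub_self]
    obtain ⟨f, hf⟩ : (ℓ : ℤ) ∣ d - c * j.val := by
      rw [← ZMod.intCast_zmod_eq_zero_iff_dvd]
      push_cast
      rw [ZMod.natCast_zmod_val, hj2, sub_self]
    have hd1 : a * f - e * c = 1 := by
      have : (ℓ : ℤ) * (a * f - e * c - 1) = 0 := by
        linear_combination a * (-hf) + c * he + hdet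
      rcases mul_eq_zero.mp this with h | h
      · exact absurd h hℓ0
      · linarith
    refine ⟨(j : OnePoint (ZMod ℓ)), ⟨!![a, e; c, f], ?_⟩, hc, ?_⟩
    · rw [Matrix.det_fin_two_of]; exact hd1
    · rw [heckeRep_coe, rtbb_mapGL_mk, val_heckeMatrix hp]
      have heR := congrArg (Int.cast : ℤ → ℝ) he
      have hfR := congrArg (Int.cast : ℤ → ℝ) hf
      push_cast at heR hfR
      ext i k
      fin_cases i <;> fin_cases k <;>
        simp [Matrix.mul_apply, Fin.sum_univ_two, -ZMod.natCast_val]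
      · linear_combination heR
      · linear_combination hfR

end Fermat.Agent.RT.Base
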