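import Fermat.Agent.RT.Base.BdRep

/-!
# BASE-BRIDGE, boundary (3): the Hecke sum of an element acting trivially on `ℙ¹(𝔽_ℓ)`

If `h ∈ Γ₀(N)` acts trivially on `ℙ¹(𝔽_ℓ)` then `(T_ℓ φ)(h) = ∑_y φ(B_y h B_y⁻¹)` for ANY system
`B_y` of representatives of `Γ₀(N) \ Δ_ℓ` (`rtbb_sum`).
-/

set_option autoImplicit false

noncomputable section

namespace Fermat.Agent.RT.Base

open Matrix Matrix.SpecialLinearGroup CongruenceSubgroup ModularForm OnePoint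
open P2MW.S_ModularForm_heckeT_slash_eq_self_of_mem_Gamma0.ModularForm.HeckeSlashInvariance
open Fermat.Agent.ES.HeckeP
open scoped MatrixGroups

variable {ℓ N : ℕ} [Fact ℓ.Prime] {A : Type*} [AddCommGroup A]

omit [Fact ℓ.Prime] in
/-- conjugate elements have the same image in an abelian group -/
theorem rtbb_phi_conj (φ : Additive (Gamma0 N) →+ A) (γ κ g' : Gamma0 N)
    (h : γ * κ = g' * γ) : φ (Additive.ofMul κ) = φ (Additive.ofMul g') := by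
  have h1 := congrArg (fun z => φ (Additive.ofMul z)) h
  simp only [ofMul_mul, map_add] at h1
  rw [add_comm] at h1
  exact add_right_cancel h1

/-- an element `≡ 1 mod ℓ` acts trivially on `ℙ¹(𝔽_ℓ)` -/
theorem rtbb_idx_of_congr (k : SL(2, ℤ)) (h00 : (ℓ : ℤ) ∣ k 0 0 - 1) (h01 : (ℓ : ℤ) ∣ k 0 1)
    (h10 : (ℓ : ℤ) ∣ k 1 0) (h11 : (ℓ : ℤ) ∣ k 1 1 - 1) (x : OnePoint (ZMod ℓ)) :
    idx k x = x := by
  have e00 : ((k 0 0 : ℤ) : ZMod ℓ) = 1 := by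
    have := (ZMod.intCast_zmod_eq_zero_iff_dvd _ _).mpr h00
    push_cast at this
    exact sub_eq_zero.mp this
  have e11 : ((k 1 1 : ℤ) : ZMod ℓ) = 1 := by
    have := (ZMod.intCast_zmod_eq_zero_iff_dvd _ _).mpr h11
    push_cast at this
    exact sub_eq_zero.mp this
  have e01 : ((k 0 1 : ℤ) : ZMod ℓ) = 0 := (ZMod.intCast_zmod_eq_zero_iff_dvd _ _).mpr h01
  have e10 : ((k 1 0 : ℤ) : ZMod ℓ) = 0 := (ZMod.intCast_zmod_eq_zero_iff_dvd _ _).mpr h10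
  have h1 : redMatrix ℓ k = 1 := by
    apply Matrix.GeneralLinearGroup.ext
    intro i j
    fin_cases i <;> fin_cases j
    · show redMatrix ℓ k 0 0 = _
      rw [redMatrix_apply_zero_zero, e11]; rfl
    · show redMatrix ℓ k 0 1 = _
      rw [redMatrix_apply_zero_one, e01]; rfl
    · show redMatrix ℓ k 1 0 = _
      rw [redMatrix_apply_one_zero, e10]; rfl
    · show redMatrix ℓ k 1 1 = _
      rw [redMatrix_apply_one_one, e00]; rfl
  rw [idx, h1, one_smul]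

/-- if `B = γ α_x`, `γ ∈ Γ₀(N)`, `h` fixes `x` and `B h = g' B`, then `κ(h, x)` is conjugate to
`g'` in `Γ₀(N)` -/
theorem rtbb_kap_eq (hℓN : ¬ ℓ ∣ N) (φ : Additive (Gamma0 N) →+ A) (h : Gamma0 N)
    (x : OnePoint (ZMod ℓ)) (hx : idx (h : SL(2, ℤ)) x = x)
    (B : Matrix (Fin 2) (Fin 2) ℤ) (γ : SL(2, ℤ)) (hγ : (N : ℤ) ∣ γ 1 0)
    (hB : B.map (algebraMap ℤ ℝ) =
      ((mapGL ℝ γ : GL (Fin 2) ℝ) : Matrix (Fin 2) (Fin 2) ℝ) *
        ((heckeRep ℓ x : GL (Fin 2) ℝ) : Matrix (Fin 2) (Fin 2) ℝ))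
    (g' : Gamma0 N)
    (hrel : B * ((h : SL(2, ℤ)) : Matrix (Fin 2) (Fin 2) ℤ) =
      ((g' : SL(2, ℤ)) : Matrix (Fin 2) (Fin 2) ℤ) * B) :
    φ (Additive.ofMul (kap hℓN h x)) = φ (Additive.ofMul g') := by
  have hγmem : γ ∈ Gamma0 N := Gamma0_mem.mpr ((ZMod.intCast_zmod_eq_zero_iff_dvd _ _).mpr hγ)
  refine rtbb_phi_conj φ ⟨γ, hγmem⟩ _ _ ?_
  apply Subtype.ext
  rw [Subgroup.coe_mul, Subgroup.coe_mul]
  show γ * (kap hℓN h x : SL(2, ℤ)) = (g' : SL(2, ℤ)) * γ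
  apply mapGL_injective (R := ℤ) (S := ℝ)
  have hk := kap_spec hℓN h x
  rw [hx] at hk
  have h1 := congrArg (fun M : Matrix (Fin 2) (Fin 2) ℤ => M.map (algebraMap ℤ ℝ)) hrel
  simp only [Matrix.map_mul, hB] at h1
  rw [← rtbb_mapGL_coe, ← rtbb_mapGL_coe] at h1
  have h2 : mapGL ℝ γ * heckeRep ℓ x * mapGL ℝ (h : SL(2, ℤ)) =
      mapGL ℝ (g' : SL(2, ℤ)) * (mapGL ℝ γ * heckeRep ℓ x) := by
    apply Units.ext
    simpa only [Units.val_mul] using h1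
  rw [mul_assoc, hk, ← mul_assoc, ← mul_assoc] at h2
  have h3 := mul_right_cancel h2
  rw [map_mul, map_mul]
  exact h3

/-- **the Hecke sum** of an element acting trivially on `ℙ¹(𝔽_ℓ)`, computed with an arbitrary
system of representatives -/
theorem rtbb_sum (hℓN : ¬ ℓ ∣ N) (φ : Additive (Gamma0 N) →+ A) (h : Gamma0 N)
    (hh : ∀ x : OnePoint (ZMod ℓ), idx (h : SL(2, ℤ)) x = x)
    (B : OnePoint (ZMod ℓ) → Matrix (Fin 2) (Fin 2) ℤ) (g' : OnePoint (ZMod ℓ) → Gamma0 N)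
    (hdet : ∀ y, (B y).det = ℓ) (hBN : ∀ y, (N : ℤ) ∣ B y 1 0)
    (hrel : ∀ y, B y * ((h : SL(2, ℤ)) : Matrix (Fin 2) (Fin 2) ℤ) =
      ((g' y : SL(2, ℤ)) : Matrix (Fin 2) (Fin 2) ℤ) * B y)
    (hinj : ∀ (y y' : OnePoint (ZMod ℓ)) (γ : SL(2, ℤ)),
      B y = (γ : Matrix (Fin 2) (Fin 2) ℤ) * B y' → y = y') :
    heckeHom hℓN φ (Additive.ofMul h) = ∑ y, φ (Additive.ofMul (g' y)) := by
  classical
  have hex : ∀ y, ∃ (x : OnePoint (ZMod ℓ)) (γ : SL(2, ℤ)), (N : ℤ) ∣ γ 1 0 ∧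
      (B y).map (algebraMap ℤ ℝ) =
        ((mapGL ℝ γ : GL (Fin 2) ℝ) : Matrix (Fin 2) (Fin 2) ℝ) *
          ((heckeRep ℓ x : GL (Fin 2) ℝ) : Matrix (Fin 2) (Fin 2) ℝ) := by
    intro y
    have hd : B y 0 0 * B y 1 1 - B y 0 1 * B y 1 0 = ℓ := by
      rw [← Matrix.det_fin_two]; exact hdet y
    obtain ⟨x, γ, h1, h2⟩ := rtbb_exists_rep hℓN (B y 0 0) (B y 0 1) (B y 1 0) (B y 1 1) hd (hBN y)
    refine ⟨x, γ, h1, ?_⟩
    rw [← h2, ← Matrix.eta_fin_two (B y)]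
  choose π γ hγ hπ using hex
  have hπinj : Function.Injective π := by
    intro y y' hyy
    refine hinj y y' (γ y * (γ y')⁻¹) ?_
    apply Matrix.map_injective (algebraMap ℤ ℝ).injective_int
    beta_reduce
    rw [Matrix.map_mul, hπ y, hπ y', hyy, ← rtbb_mapGL_coe,
      map_mul, map_inv, ← mul_assoc]
    rw [← Units.val_mul, ← Units.val_mul, ← Units.val_mul, inv_mul_cancel_right]
  have hπbij : Function.Bijective π := Finite.injective_iff_bijective.mp hπinj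
  rw [heckeHom_apply]
  rw [← Equiv.sum_comp (Equiv.ofBijective π hπbij)
    (fun x => φ (Additive.ofMul (kap hℓN h x)))]
  refine Finset.sum_congr rfl fun y _ => ?_
  exact rtbb_kap_eq hℓN φ h (π y) (hh _) (B y) (γ y) (hγ y) (hπ y) (g' y) (hrel y)

end Fermat.Agent.RT.Base
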