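import Fermat.Agent.RT.K5.Plan
import Fermat.Agent.S31.Plan

/-!
# K-machine, BASE-BRIDGE (helper22): interface

"A polynomial in the good Hecke operators which kills `S₂(Γ₀(N))` kills the base module `M0`",
where `M0` is (a module mapping Hecke-equivariantly into) the `η`-part of `Hom(Γ₀(N), A)`,
`η = T_ℓ₀ − (ℓ₀ + 1)`, `A` torsion-free, `N` squarefree.

* `StmtBoundary` : the boundary of `Y₀(N)` is Eisenstein (`N` squarefree): for every
  `φ ∈ Hom(Γ₀(N), A)` and every `g` of trace `±2`, `(T_ℓ φ)(g) = (ℓ + 1) φ(g)`.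
* `StmtEtaPar` : hence the `η`-part consists of PARABOLIC homomorphisms.
* `StmtBridgePar` : a Hecke polynomial outside `S` which vanishes on the cusp forms kills every
  Hecke module mapping equivariantly into the parabolic homomorphisms (S21 + naturality).
* `StmtBaseBridge` : the same for a Hecke module mapping equivariantly into the `η`-part;
  this is the shape of `hocc` of `RT/Interp/Quot.lean` (`rtint_point_of_quot`).

The Hecke ring `T0` is ANY commutative ring acting on ANY abelian group `M0`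
(`act : T0 →+* AddMonoid.End M0`), with `ι : M0 →+ Hom(Γ₀(N), A)` intertwining `a ℓ` with
`tS N M ℓ ⊤ A` for the primes `ℓ ∉ S`.  If `ι` is injective and `M0` is a faithful `T0`-module
the conclusion reads `aeval a t = 0` in `T0`.
-/

set_option autoImplicit false

noncomputable section

namespace Fermat.Agent.RT.Base

open CongruenceSubgroup Matrix ModularCurve.Period
open scoped MatrixGroups
open Fermat.Agent.ES1 (gammaH)
open Fermat.Agent.RT.K5 (HomS tS etaS etaPart)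

/-- `T_ℓ = K5.tS N M ℓ ⊤ A` on `Hom(Γ₀(N), A)` (`Γ₀(N) = gammaH N M ⊤`), for `ℓ : Nat.Primes`. -/
def rtbbT (N M : ℕ) [NeZero N] [Fact (M ∣ N)] (A : Type) [AddCommGroup A] (ℓ : Nat.Primes) :
    HomS (gammaH N M (⊤ : Subgroup (ZMod M)ˣ)) A →+ HomS (gammaH N M (⊤ : Subgroup (ZMod M)ˣ)) A :=
  haveI : NeZero (ℓ : ℕ) := ⟨ℓ.2.ne_zero⟩
  tS N M ℓ ⊤ A

/-- **BOUNDARY.**  For squarefree `N`, a prime `ℓ ∤ N` and a torsion-free `A`: on the elements of
trace `±2` of `Γ₀(N)` the homomorphism `T_ℓ φ` is `(ℓ + 1) φ`. -/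
def StmtBoundary : Prop :=
  ∀ (N ℓ : ℕ) [NeZero N] [Fact ℓ.Prime] (hℓ : ¬ ℓ ∣ N) (A : Type) [AddCommGroup A],
    Squarefree N → (∀ (n : ℕ) (a : A), n ≠ 0 → n • a = 0 → a = 0) →
    ∀ (φ : S41.HomG N A) (g : Gamma0 N),
      ((g : SL(2, ℤ)) : Matrix (Fin 2) (Fin 2) ℤ).trace ^ 2 = 4 →
      S41.Tc ℓ hℓ φ (Additive.ofMul g) = (ℓ + 1) • φ (Additive.ofMul g)

/-- **ETA-PAR.**  The `η`-part of `Hom(Γ₀(N), A)` consists of parabolic homomorphisms. -/
def StmtEtaPar : Prop :=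
  ∀ (N M ℓ₀ : ℕ) [NeZero N] [NeZero ℓ₀] [Fact (M ∣ N)] (A : Type) [AddCommGroup A],
    Squarefree N → ℓ₀.Prime → ¬ ℓ₀ ∣ N → (∀ (n : ℕ) (a : A), n ≠ 0 → n • a = 0 → a = 0) →
    ∀ φ ∈ etaPart (etaS N M ℓ₀ (⊤ : Subgroup (ZMod M)ˣ) A),
      IsParabolicHom (gammaH N M (⊤ : Subgroup (ZMod M)ˣ)) φ

/-- **BRIDGE-PAR.**  A Hecke polynomial in the variables outside `S` which vanishes on
`S₂(Γ₀(N))` kills every Hecke module which maps equivariantly into `Hom_par(Γ₀(N), A)`,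
`A` torsion-free. -/
def StmtBridgePar : Prop :=
  ∀ (N M : ℕ) [NeZero N] [Fact (M ∣ N)] (A : Type) [AddCommGroup A],
    (∀ (n : ℕ) (a : A), n ≠ 0 → n • a = 0 → a = 0) →
    ∀ (S : Set ℕ), (∀ q : ℕ, q.Prime → q ∣ N → q ∈ S) →
    ∀ (T0 : Type) [CommRing T0] (M0 : Type) [AddCommGroup M0] (act : T0 →+* AddMonoid.End M0)
      (ι : M0 →+ HomS (gammaH N M (⊤ : Subgroup (ZMod M)ˣ)) A) (a : Nat.Primes → T0),
      (∀ m, IsParabolicHom (gammaH N M (⊤ : Subgroup (ZMod M)ˣ)) (ι m)) →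
      (∀ ℓ : Nat.Primes, (ℓ : ℕ) ∉ S → ∀ m, ι (act (a ℓ) m) = rtbbT N M A ℓ (ι m)) →
      ∀ t ∈ MvPolynomial.supported ℤ (Fermat.Agent.S31.outsideVars S),
        CuspForm.heckeEvalForms N 2 t = 0 →
        ∀ m, ι (act (MvPolynomial.aeval a t) m) = 0

/-- **BASE-BRIDGE.**  A Hecke polynomial in the variables outside `S` which vanishes on
`S₂(Γ₀(N))` kills every Hecke module which maps equivariantly into the `η`-part of
`Hom(Γ₀(N), A)`; `N` squarefree, `A` torsion-free, `η = T_ℓ₀ − (ℓ₀ + 1)`, `ℓ₀ ∤ N`. -/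
def StmtBaseBridge : Prop :=
  ∀ (N M ℓ₀ : ℕ) [NeZero N] [NeZero ℓ₀] [Fact (M ∣ N)] (A : Type) [AddCommGroup A],
    Squarefree N → ℓ₀.Prime → ¬ ℓ₀ ∣ N → (∀ (n : ℕ) (a : A), n ≠ 0 → n • a = 0 → a = 0) →
    ∀ (S : Set ℕ), (∀ q : ℕ, q.Prime → q ∣ N → q ∈ S) →
    ∀ (T0 : Type) [CommRing T0] (M0 : Type) [AddCommGroup M0] (act : T0 →+* AddMonoid.End M0)
      (ι : M0 →+ HomS (gammaH N M (⊤ : Subgroup (ZMod M)ˣ)) A) (a : Nat.Primes → T0),
      (∀ m, ι m ∈ etaPart (etaS N M ℓ₀ (⊤ : Subgroup (ZMod M)ˣ) A)) →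
      (∀ ℓ : Nat.Primes, (ℓ : ℕ) ∉ S → ∀ m, ι (act (a ℓ) m) = rtbbT N M A ℓ (ι m)) →
      ∀ t ∈ MvPolynomial.supported ℤ (Fermat.Agent.S31.outsideVars S),
        CuspForm.heckeEvalForms N 2 t = 0 →
        ∀ m, ι (act (MvPolynomial.aeval a t) m) = 0

end Fermat.Agent.RT.Base
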