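import Fermat.Agent.RT.Base.BdFam
import Fermat.Agent.RT.Base.Plan

/-!
# BASE-BRIDGE, boundary (5): `stmtBoundary : StmtBoundary`

For squarefree `N`, `ℓ ∤ N` prime, `A` torsion-free, `φ ∈ Hom(Γ₀(N), A)` and `g ∈ Γ₀(N)` of
trace `±2`: `(T_ℓ φ)(g) = (ℓ + 1) φ(g)`.
-/

set_option autoImplicit false

noncomputable section

namespace Fermat.Agent.RT.Base

open Matrix Matrix.SpecialLinearGroup CongruenceSubgroup ModularForm OnePoint
open P2MW.S_ModularForm_heckeT_slash_eq_self_of_mem_Gamma0.ModularForm.HeckeSlashInvariance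
open Fermat.Agent.ES.HeckeP
open scoped MatrixGroups

/-- the entries of `σ [[1, t], [0, 1]] σ⁻¹` -/
theorem rtbbC_unip (σ : SL(2, ℤ)) (t : ℤ) :
    rtbbC σ !![1, t; 0, 1] 0 0 = 1 - t * (σ 0 0 * σ 1 0) ∧
    rtbbC σ !![1, t; 0, 1] 0 1 = t * (σ 0 0) ^ 2 ∧
    rtbbC σ !![1, t; 0, 1] 1 0 = - (t * (σ 1 0) ^ 2) ∧
    rtbbC σ !![1, t; 0, 1] 1 1 = 1 + t * (σ 0 0 * σ 1 0) := by
  have hd := rtbb_det σ
  unfold rtbbC
  simp only [Matrix.SpecialLinearGroup.coe_inv, Matrix.adjugate_fin_two, Matrix.mul_apply,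
    Fin.sum_univ_two, Matrix.of_apply, Matrix.cons_val', Matrix.cons_val_zero,
    Matrix.cons_val_one, Matrix.empty_val', Matrix.cons_val_fin_one]
  refine ⟨?_, ?_, ?_, ?_⟩
  · linear_combination hd
  · ring
  · ring
  · linear_combination hd

variable {ℓ N : ℕ} [Fact ℓ.Prime] {A : Type*} [AddCommGroup A]

/-- the case of trace `2` -/
theorem rtbb_boundary_two (hN : Squarefree N) (hℓN : ¬ ℓ ∣ N)
    (hA : ∀ (n : ℕ) (a : A), n ≠ 0 → n • a = 0 → a = 0)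
    (φ : Additive (Gamma0 N) →+ A) (g : Gamma0 N)
    (hg : (g : SL(2, ℤ)) 0 0 + (g : SL(2, ℤ)) 1 1 = 2) :
    heckeHom hℓN φ (Additive.ofMul g) = (ℓ + 1) • φ (Additive.ofMul g) := by
  have hℓ : ℓ.Prime := Fact.out
  obtain ⟨σ, m, hgσ, hσN⟩ := rtbb_exists_conj hN (g : SL(2, ℤ)) hg
  have hcoe : ∀ k : ℕ, (((g ^ k : Gamma0 N) : SL(2, ℤ)) : Matrix (Fin 2) (Fin 2) ℤ) =
      rtbbC σ !![1, m * k; 0, 1] := by
    intro k
    rw [Subgroup.coe_pow]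
    exact rtbb_coe_conj σ m k _ hgσ
  -- `g ^ ℓ` acts trivially
  have hidx : ∀ x : OnePoint (ZMod ℓ), idx (((g ^ ℓ : Gamma0 N) : SL(2, ℤ))) x = x := by
    intro x
    obtain ⟨e00, e01, e10, e11⟩ := rtbbC_unip σ (m * (ℓ : ℕ))
    have hc := hcoe ℓ
    have c00 : ((g ^ ℓ : Gamma0 N) : SL(2, ℤ)) 0 0 = 1 - m * (ℓ : ℕ) * (σ 0 0 * σ 1 0) := by
      rw [← e00, ← hc]
    have c01 : ((g ^ ℓ : Gamma0 N) : SL(2, ℤ)) 0 1 = m * (ℓ : ℕ) * (σ 0 0) ^ 2 := by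
      rw [← e01, ← hc]
    have c10 : ((g ^ ℓ : Gamma0 N) : SL(2, ℤ)) 1 0 = -(m * (ℓ : ℕ) * (σ 1 0) ^ 2) := by
      rw [← e10, ← hc]
    have c11 : ((g ^ ℓ : Gamma0 N) : SL(2, ℤ)) 1 1 = 1 + m * (ℓ : ℕ) * (σ 0 0 * σ 1 0) := by
      rw [← e11, ← hc]
    refine rtbb_idx_of_congr _ ?_ ?_ ?_ ?_ x
    · rw [c00]; exact ⟨-(m * (σ 0 0 * σ 1 0)), by ring⟩
    · rw [c01]; exact ⟨m * (σ 0 0) ^ 2, by ring⟩
    · rw [c10]; exact ⟨-(m * (σ 1 0) ^ 2), by ring⟩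
    · rw [c11]; exact ⟨m * (σ 0 0 * σ 1 0), by ring⟩
  -- the Hecke sum
  have hsum := rtbb_sum hℓN φ (g ^ ℓ) hidx (fun y => rtbbC σ (rtbbA ℓ N y))
    (fun y => g ^ (rtbbE ℓ y))
    (fun y => by rw [rtbbC_det, rtbbA_det])
    (fun y => rtbb_dvd_entry σ hσN y)
    (fun y => by rw [hcoe, hcoe, rtbbC_mul, rtbbC_mul, rtbbA_rel])
    (fun y y' γ h => by
      refine rtbbA_inj hℓN y y' (σ⁻¹ * γ * σ) ?_
      have h1 : rtbbA ℓ N y = ((σ⁻¹ : SL(2, ℤ)) : Matrix (Fin 2) (Fin 2) ℤ) *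
          rtbbC σ (rtbbA ℓ N y) * (σ : Matrix (Fin 2) (Fin 2) ℤ) := by
        unfold rtbbC
        rw [← Matrix.mul_assoc, ← Matrix.mul_assoc, rtbb_coe_inv_mul, Matrix.one_mul,
          Matrix.mul_assoc, rtbb_coe_inv_mul, Matrix.mul_one]
      rw [h1, h]
      unfold rtbbC
      rw [Matrix.SpecialLinearGroup.coe_mul, Matrix.SpecialLinearGroup.coe_mul]
      simp only [Matrix.mul_assoc]
      rw [rtbb_coe_inv_mul, Matrix.mul_one])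
  -- both sides
  have hL : heckeHom hℓN φ (Additive.ofMul (g ^ ℓ)) = ℓ • heckeHom hℓN φ (Additive.ofMul g) := by
    rw [ofMul_pow, map_nsmul]
  have hR : ∑ y : OnePoint (ZMod ℓ), φ (Additive.ofMul (g ^ (rtbbE ℓ y))) =
      ℓ • ((ℓ + 1) • φ (Additive.ofMul g)) := by
    have h1 := Fintype.sum_option (fun y : OnePoint (ZMod ℓ) => φ (Additive.ofMul (g ^ (rtbbE ℓ y))))
    refine h1.trans ?_
    have h2 : ∀ j : ZMod ℓ, φ (Additive.ofMul (g ^ (rtbbE ℓ (Option.some j)))) = φ (Additive.ofMul g) := by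
      intro j
      show φ (Additive.ofMul (g ^ 1)) = _
      rw [pow_one]
    have h3 : φ (Additive.ofMul (g ^ (rtbbE ℓ (none : Option (ZMod ℓ))))) =
        (ℓ ^ 2) • φ (Additive.ofMul g) := by
      show φ (Additive.ofMul (g ^ (ℓ ^ 2))) = _
      rw [ofMul_pow, map_nsmul]
    rw [h3, Finset.sum_congr rfl (fun j _ => h2 j), Finset.sum_const, Finset.card_univ,
      ZMod.card, ← add_nsmul, ← mul_nsmul]
    congr 1
    ring
  rw [hL, hR] at hsum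
  have h0 : ℓ • (heckeHom hℓN φ (Additive.ofMul g) - (ℓ + 1) • φ (Additive.ofMul g)) = 0 := by
    rw [nsmul_sub, hsum, sub_self]
  exact sub_eq_zero.mp (hA ℓ _ hℓ.ne_zero h0)

/-- **BOUNDARY.** -/
theorem stmtBoundary : StmtBoundary := by
  intro N ℓ _ _ hℓN A _ hN hA φ g hg
  show heckeHom hℓN φ (Additive.ofMul g) = (ℓ + 1) • φ (Additive.ofMul g)
  have hdet := rtbb_det (g : SL(2, ℤ))
  rw [Matrix.trace_fin_two] at hg
  have hg2 : ((g ^ 2 : Gamma0 N) : SL(2, ℤ)) 0 0 + ((g ^ 2 : Gamma0 N) : SL(2, ℤ)) 1 1 = 2 := by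
    rw [Subgroup.coe_pow, pow_two]
    simp only [Matrix.SpecialLinearGroup.coe_mul, Matrix.mul_apply, Fin.sum_univ_two]
    linear_combination hg - 2 * hdet
  have h2 := rtbb_boundary_two hN hℓN hA φ (g ^ 2) hg2
  rw [ofMul_pow, map_nsmul, map_nsmul] at h2
  have h0 : 2 • (heckeHom hℓN φ (Additive.ofMul g) - (ℓ + 1) • φ (Additive.ofMul g)) = 0 := by
    rw [nsmul_sub, h2, smul_comm, sub_self]
  exact sub_eq_zero.mp (hA 2 _ two_ne_zero h0)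

end Fermat.Agent.RT.Base
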