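import Fermat.Agent.RT.Base.Plan
import Fermat.Agent.STB.KillsJ
import Fermat.Agent.RT.K5.Top

/-!
# BASE-BRIDGE: `stmtBridgePar : StmtBridgePar`

A Hecke polynomial in the variables outside `S` which vanishes on `S₂(Γ₀(N))` kills every Hecke
module mapping equivariantly into `Hom_par(Γ₀(N), A)`, `A` torsion-free.

* `rtbb_exists_functional` : additive maps to `ℂ` separate the points of a torsion-free group;
* `rtbb_wordOp_par` : a word which vanishes on the cusp forms kills `Hom_par(Γ₀(N), A)`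
  (`STB.stb_p2_wordOp_par` = S21, and naturality);
* `rtbb_word_intertwine` : `ι` intertwines `aeval a (wordPoly w)` with the word `w`.
-/

set_option autoImplicit false

noncomputable section

namespace Fermat.Agent.RT.Base

open CongruenceSubgroup Matrix ModularCurve ModularCurve.Period
open scoped MatrixGroups
open Fermat.Agent.ES1 (gammaH)
open Fermat.Agent.RT.K5 (HomS tS etaS etaPart)
open Fermat.Agent.ES

/-- additive maps to `ℂ` separate the points of a torsion-free abelian group -/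
theorem rtbb_exists_functional {A : Type} [AddCommGroup A]
    (hA : ∀ (n : ℕ) (a : A), n ≠ 0 → n • a = 0 → a = 0) (x : A) (hx : x ≠ 0) :
    ∃ f : A →+ ℂ, f x ≠ 0 := by
  have hinj : Function.Injective ((zmultiplesHom A) x) := by
    rw [injective_iff_map_eq_zero]
    intro n hn
    rw [zmultiplesHom_apply] at hn
    by_contra hn0
    have h1 : n.natAbs • x = 0 := by
      rcases Int.natAbs_eq n with h | h
      · rw [h] at hn; simpa using hn
      · rw [h] at hn; simpa using hn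
    exact hx (hA _ x (Int.natAbs_ne_zero.mpr hn0) h1)
  obtain ⟨h, hh⟩ := (Module.Baer.of_divisible ℂ).extension_property_addMonoidHom
    ((zmultiplesHom A) x) hinj (Int.castAddHom ℂ)
  refine ⟨h, ?_⟩
  have := DFunLike.congr_fun hh 1
  simp at this
  rw [this]
  exact one_ne_zero

/-- a word which vanishes on the cusp forms kills the parabolic homomorphisms with values in a
torsion-free group -/
theorem rtbb_wordOp_par {N p : ℕ} [NeZero N] {A : Type} [AddCommGroup A]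
    (hA : ∀ (n : ℕ) (a : A), n ≠ 0 → n • a = 0 → a = 0)
    (w : FreeAlgebra ℤ (GoodPrime N p)) (hw : wordForms N p w = 0)
    (φ : Additive (Gamma0 N) →+ A) (hφ : IsParabolicHom (Gamma0 N) φ) :
    wordOp (heckeOp N p) A w φ = 0 := by
  refine AddMonoidHom.ext fun γ => ?_
  rw [AddMonoidHom.zero_apply]
  by_contra hne
  obtain ⟨f, hf⟩ := rtbb_exists_functional hA _ hne
  have h1 := wordOp_natural (T := heckeOp N p)
    (fun ℓ A A' _ _ f ψ => heckeOp_natural ℓ A A' f ψ) w A ℂ f φ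
  have h2 : wordOp (heckeOp N p) ℂ w (f.comp φ) = 0 := by
    apply Fermat.Agent.STB.stb_p2_wordOp_par w hw
    intro γ hγ
    rw [AddMonoidHom.comp_apply, hφ γ hγ, map_zero]
  rw [h2] at h1
  have h3 := DFunLike.congr_fun h1 γ
  rw [AddMonoidHom.zero_apply, AddMonoidHom.comp_apply] at h3
  exact hf h3.symm

section words

variable (N : ℕ) (S : Set ℕ) (hS : ∀ q : ℕ, q.Prime → q ∣ N → q ∈ S)

/-- the primes outside `S` are good -/
def rtbbIncl (ℓ : ↥(Fermat.Agent.S31.outsideVars S)) : GoodPrime N 1 :=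
  ⟨ℓ.1, by
    show ¬ ((ℓ.1 : ℕ) ∣ N * 1)
    rw [mul_one]
    exact fun h => ℓ.2 (hS _ ℓ.1.2 h)⟩

/-- words in the primes outside `S` as words in the good primes -/
def rtbbMapW :
    FreeAlgebra ℤ ↥(Fermat.Agent.S31.outsideVars S) →ₐ[ℤ] FreeAlgebra ℤ (GoodPrime N 1) :=
  FreeAlgebra.lift ℤ (fun x => FreeAlgebra.ι ℤ (rtbbIncl N S hS x))

theorem rtbbMapW_ι (x : ↥(Fermat.Agent.S31.outsideVars S)) :
    rtbbMapW N S hS (FreeAlgebra.ι ℤ x) = FreeAlgebra.ι ℤ (rtbbIncl N S hS x) := by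
  simp [rtbbMapW]

theorem rtbb_exists_word {t : HeckeAlg}
    (ht : t ∈ MvPolynomial.supported ℤ (Fermat.Agent.S31.outsideVars S)) :
    ∃ w, wordPoly N 1 (rtbbMapW N S hS w) = t := by
  have h1 : MvPolynomial.supported ℤ (Fermat.Agent.S31.outsideVars S) ≤
      ((wordPoly N 1).comp (rtbbMapW N S hS)).range := by
    rw [MvPolynomial.supported_eq_adjoin_X]
    refine Algebra.adjoin_le ?_
    rintro _ ⟨ℓ, hℓ, rfl⟩
    refine ⟨FreeAlgebra.ι ℤ (⟨ℓ, hℓ⟩ : ↥(Fermat.Agent.S31.outsideVars S)), ?_⟩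
    show wordPoly N 1 (rtbbMapW N S hS (FreeAlgebra.ι ℤ _)) = _
    rw [rtbbMapW_ι, wordPoly_ι]
    rfl
  exact h1 ht

end words

section transport

variable {N M : ℕ} [hMN : Fact (M ∣ N)] {A : Type} [AddCommGroup A]

/-- the identification `gammaH N M ⊤ = Γ₀(N)` -/
def rtbbE0 (N M : ℕ) [hMN : Fact (M ∣ N)] :
    gammaH N M (⊤ : Subgroup (ZMod M)ˣ) ≃* Gamma0 N :=
  MulEquiv.subgroupCongr (Fermat.Agent.ES1.gammaH_top_of_dvd hMN.out)

theorem rtbbE0_coe (γ : gammaH N M (⊤ : Subgroup (ZMod M)ˣ)) :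
    ((rtbbE0 N M γ : Gamma0 N) : SL(2, ℤ)) = γ := rfl

theorem rtbbE0_symm_coe (γ : Gamma0 N) :
    (((rtbbE0 N M).symm γ : gammaH N M (⊤ : Subgroup (ZMod M)ˣ)) : SL(2, ℤ)) = γ := rfl

/-- transport of homomorphisms to `Γ₀(N)` -/
def rtbbTr (N M : ℕ) [Fact (M ∣ N)] (A : Type) [AddCommGroup A] :
    HomS (gammaH N M (⊤ : Subgroup (ZMod M)ˣ)) A →+ (Additive (Gamma0 N) →+ A) where
  toFun φ := φ.comp (MonoidHom.toAdditive (rtbbE0 N M).symm.toMonoidHom)
  map_zero' := rfl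
  map_add' _ _ := rfl

theorem rtbbTr_apply (φ : HomS (gammaH N M (⊤ : Subgroup (ZMod M)ˣ)) A) (γ : Gamma0 N) :
    rtbbTr N M A φ (Additive.ofMul γ) = φ (Additive.ofMul ((rtbbE0 N M).symm γ)) := rfl

theorem rtbbTr_comp (φ : HomS (gammaH N M (⊤ : Subgroup (ZMod M)ˣ)) A) :
    (rtbbTr N M A φ).comp (MonoidHom.toAdditive (rtbbE0 N M).toMonoidHom) = φ := by
  refine AddMonoidHom.ext fun γ => ?_
  obtain ⟨γ, rfl⟩ : ∃ γ' : gammaH N M (⊤ : Subgroup (ZMod M)ˣ), Additive.ofMul γ' = γ :=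
    ⟨Additive.toMul γ, rfl⟩
  show φ (Additive.ofMul ((rtbbE0 N M).symm (rtbbE0 N M γ))) = _
  rw [MulEquiv.symm_apply_apply]

theorem rtbbTr_injective :
    Function.Injective (rtbbTr N M A) := by
  intro φ ψ h
  rw [← rtbbTr_comp φ, ← rtbbTr_comp ψ, h]

theorem rtbbTr_parabolic {φ : HomS (gammaH N M (⊤ : Subgroup (ZMod M)ˣ)) A}
    (hφ : IsParabolicHom (gammaH N M (⊤ : Subgroup (ZMod M)ˣ)) φ) :
    IsParabolicHom (Gamma0 N) (rtbbTr N M A φ) := by
  intro γ hγ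
  rw [rtbbTr_apply]
  exact hφ _ (by rw [rtbbE0_symm_coe]; exact hγ)

theorem rtbb_parabolic_of_tr {φ : HomS (gammaH N M (⊤ : Subgroup (ZMod M)ˣ)) A}
    (hφ : IsParabolicHom (Gamma0 N) (rtbbTr N M A φ)) :
    IsParabolicHom (gammaH N M (⊤ : Subgroup (ZMod M)ˣ)) φ := by
  intro γ hγ
  have h := hφ (rtbbE0 N M γ) (by rw [rtbbE0_coe]; exact hγ)
  rw [rtbbTr_apply, MulEquiv.symm_apply_apply] at h
  exact h

/-- **K5-TOP, transported**: `tS` is `heckeHom` on `Γ₀(N)` -/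
theorem rtbbTr_tS [NeZero N] (ℓ : ℕ) [NeZero ℓ] [Fact ℓ.Prime] (hℓ : ¬ ℓ ∣ N)
    (φ : HomS (gammaH N M (⊤ : Subgroup (ZMod M)ˣ)) A) :
    rtbbTr N M A (tS N M ℓ ⊤ A φ) = HeckeP.heckeHom hℓ (rtbbTr N M A φ) := by
  have h := Fermat.Agent.RT.K5.stmtTop N M ℓ hℓ A (rtbbE0 N M) (fun γ => rfl) (rtbbTr N M A φ)
  rw [rtbbTr_comp] at h
  rw [h]
  refine AddMonoidHom.ext fun γ => ?_
  obtain ⟨γ, rfl⟩ : ∃ γ' : Gamma0 N, Additive.ofMul γ' = γ := ⟨Additive.toMul γ, rfl⟩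
  rw [rtbbTr_apply]
  show (Fermat.Agent.S41.Tc ℓ hℓ (rtbbTr N M A φ))
    (Additive.ofMul (rtbbE0 N M ((rtbbE0 N M).symm γ))) = _
  rw [MulEquiv.apply_symm_apply]
  rfl

theorem rtbbTr_rtbbT [NeZero N] (ℓ : Nat.Primes) (hℓ : ¬ (ℓ : ℕ) ∣ N)
    (φ : HomS (gammaH N M (⊤ : Subgroup (ZMod M)ˣ)) A) :
    rtbbTr N M A (rtbbT N M A ℓ φ) =
      @HeckeP.heckeHom (ℓ : ℕ) ⟨ℓ.2⟩ N A _ hℓ (rtbbTr N M A φ) := by
  have : NeZero (ℓ : ℕ) := ⟨ℓ.2.ne_zero⟩
  have : Fact (ℓ : ℕ).Prime := ⟨ℓ.2⟩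
  exact rtbbTr_tS (ℓ : ℕ) hℓ φ

end transport

section main

variable {N M : ℕ} [NeZero N] [hMN : Fact (M ∣ N)] {A : Type} [AddCommGroup A]

/-- `ι` intertwines polynomials with words -/
theorem rtbb_word_intertwine (S : Set ℕ) (hS : ∀ q : ℕ, q.Prime → q ∣ N → q ∈ S)
    {T0 : Type} [CommRing T0] {M0 : Type} [AddCommGroup M0] (act : T0 →+* AddMonoid.End M0)
    (ι : M0 →+ HomS (gammaH N M (⊤ : Subgroup (ZMod M)ˣ)) A) (a : Nat.Primes → T0)
    (hι : ∀ ℓ : Nat.Primes, (ℓ : ℕ) ∉ S → ∀ m, ι (act (a ℓ) m) = rtbbT N M A ℓ (ι m))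
    (w : FreeAlgebra ℤ ↥(Fermat.Agent.S31.outsideVars S)) (m : M0) :
    rtbbTr N M A (ι (act (MvPolynomial.aeval a (wordPoly N 1 (rtbbMapW N S hS w))) m)) =
      wordOp (heckeOp N 1) A (rtbbMapW N S hS w) (rtbbTr N M A (ι m)) := by
  induction w using FreeAlgebra.induction generalizing m with
  | grade0 r =>
    rw [AlgHom.commutes, AlgHom.commutes, AlgHom.commutes, AlgHom.commutes,
      Module.algebraMap_end_apply, eq_intCast, map_intCast]
    show rtbbTr N M A (ι (r • m)) = _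
    rw [map_zsmul, map_zsmul]
  | grade1 x =>
    rw [rtbbMapW_ι, wordPoly_ι, wordOp_ι, heckeOp_apply]
    have h1 : MvPolynomial.aeval a (heckeGen ((rtbbIncl N S hS x : GoodPrime N 1) : Nat.Primes)) =
        a x.1 := by
      show MvPolynomial.aeval a (MvPolynomial.X (x.1 : Nat.Primes)) = _
      rw [MvPolynomial.aeval_X]
    rw [h1, hι x.1 x.2 m]
    exact rtbbTr_rtbbT x.1 _ (ι m)
  | mul u v hu hv =>
    have e1 : act (MvPolynomial.aeval a (wordPoly N 1 (rtbbMapW N S hS (u * v)))) m =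
        act (MvPolynomial.aeval a (wordPoly N 1 (rtbbMapW N S hS u)))
          (act (MvPolynomial.aeval a (wordPoly N 1 (rtbbMapW N S hS v))) m) := by
      rw [map_mul, map_mul, map_mul, map_mul]
      rfl
    rw [e1, hu, hv, map_mul (rtbbMapW N S hS), map_mul (wordOp (heckeOp N 1) A),
      Module.End.mul_apply]
  | add u v hu hv =>
    have e1 : act (MvPolynomial.aeval a (wordPoly N 1 (rtbbMapW N S hS (u + v)))) m =
        act (MvPolynomial.aeval a (wordPoly N 1 (rtbbMapW N S hS u))) m +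
          act (MvPolynomial.aeval a (wordPoly N 1 (rtbbMapW N S hS v))) m := by
      rw [map_add, map_add, map_add, map_add]
      rfl
    rw [e1, map_add, map_add, hu, hv, map_add (rtbbMapW N S hS),
      map_add (wordOp (heckeOp N 1) A), LinearMap.add_apply]

/-- **BRIDGE-PAR.** -/
theorem stmtBridgePar : StmtBridgePar := by
  intro N M _ _ A _ hA S hS T0 _ M0 _ act ι a hpar hι t ht h0 m
  obtain ⟨w, rfl⟩ := rtbb_exists_word N S hS ht
  apply rtbbTr_injective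
  rw [rtbb_word_intertwine S hS act ι a hι w m, map_zero]
  refine rtbb_wordOp_par hA _ ?_ _ (rtbbTr_parabolic (hpar m))
  rw [wordForms_apply, h0]
  rfl

end main

end Fermat.Agent.RT.Base
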