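import Fermat.Agent.RT.Base.Boundary
import Fermat.Agent.RT.Base.BridgePar

/-!
# BASE-BRIDGE: `stmtEtaPar : StmtEtaPar`, `stmtBaseBridge : StmtBaseBridge`

* the `η`-part of `Hom(Γ₀(N), A)` (`N` squarefree, `A` torsion-free) consists of parabolic
  homomorphisms (`stmtBoundary` + `K5.stmtTop`);
* a Hecke polynomial outside `S` which vanishes on `S₂(Γ₀(N))` kills every Hecke module mapping
  equivariantly into the `η`-part (`stmtBridgePar`).
-/

set_option autoImplicit false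

noncomputable section

namespace Fermat.Agent.RT.Base

open CongruenceSubgroup Matrix ModularCurve ModularCurve.Period
open scoped MatrixGroups
open Fermat.Agent.ES1 (gammaH)
open Fermat.Agent.RT.K5 (HomS tS etaS etaPart)
open Fermat.Agent.ES

/-- the `η`-part is contained in the image of `η` -/
theorem rtbb_etaPart_le_range {V : Type*} [AddCommGroup V] (η : V →+ V) (v : V)
    (hv : v ∈ etaPart η) : ∃ w, η w = v := by
  have h := (AddSubgroup.mem_iInf.mp hv) 1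
  rw [pow_one] at h
  exact h

/-- **ETA-PAR.** -/
theorem stmtEtaPar : StmtEtaPar := by
  intro N M ℓ₀ _ _ _ A _ hN hℓ₀ hℓ₀N hA φ hφ
  obtain ⟨ψ, rfl⟩ := rtbb_etaPart_le_range _ φ hφ
  apply rtbb_parabolic_of_tr
  have : Fact ℓ₀.Prime := ⟨hℓ₀⟩
  have h2 : rtbbTr N M A (etaS N M ℓ₀ ⊤ A ψ) =
      HeckeP.heckeHom hℓ₀N (rtbbTr N M A ψ) - (ℓ₀ + 1) • rtbbTr N M A ψ := by
    unfold etaS
    rw [AddMonoidHom.sub_apply, map_sub, rtbbTr_tS ℓ₀ hℓ₀N ψ]
    congr 1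
  intro γ hγ
  rw [h2, AddMonoidHom.sub_apply]
  have h3 := stmtBoundary N ℓ₀ hℓ₀N A hN hA (rtbbTr N M A ψ) γ hγ
  have h4 : Fermat.Agent.S41.Tc ℓ₀ hℓ₀N (rtbbTr N M A ψ) =
      HeckeP.heckeHom hℓ₀N (rtbbTr N M A ψ) := rfl
  rw [h4] at h3
  rw [h3]
  show (ℓ₀ + 1) • (rtbbTr N M A ψ) (Additive.ofMul γ) -
    (ℓ₀ + 1) • (rtbbTr N M A ψ) (Additive.ofMul γ) = 0
  exact sub_self _

/-- **BASE-BRIDGE.** -/
theorem stmtBaseBridge : StmtBaseBridge := by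
  intro N M ℓ₀ _ _ _ A _ hN hℓ₀ hℓ₀N hA S hS T0 _ M0 _ act ι a hη hι t ht h0 m
  exact stmtBridgePar N M A hA S hS T0 M0 act ι a
    (fun m => stmtEtaPar N M ℓ₀ A hN hℓ₀ hℓ₀N hA _ (hη m)) hι t ht h0 m

end Fermat.Agent.RT.Base
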