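import Fermat.Agent.RT.Base.BoundaryGen
import Fermat.Agent.RT.Base.Bridge
import Fermat.Agent.RT.K5.HExpr

/-!
# BASE-BRIDGE, complements for HK-CONC (base side, `H = ⊤`)

* `rtbb_etaS_par_gen` : for squarefree `N`, `ℓ₀ ∤ N` and ANY coefficient group `A` on which `2`
  and `ℓ₀` are injective (e.g. `A` torsion-free, or `pⁿ A = 0` with `p ≠ 2, ℓ₀`), every
  `η ψ = T_ℓ₀ ψ − (ℓ₀ + 1) ψ` is a PARABOLIC homomorphism of `Γ₀(N) = gammaH N M ⊤`;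
* `rtbb_etaPart_par_of_range` : if `range θ ⊆ range η` then the `θ`-part is parabolic;
* `rtbb_thetaPart_par` : the `Θ`-part of `Θ = 𝔲 ∘ η`, `𝔲` the operator of a Hecke expression
  (`K5.HExpr`, `IsPrimes`), is parabolic;
* `rtbb_tS_par` : `T_ℓ` preserves the parabolic homomorphisms (`ℓ ∤ N` prime).
-/

set_option autoImplicit false

noncomputable section

namespace Fermat.Agent.RT.Base

open CongruenceSubgroup Matrix ModularCurve ModularCurve.Period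
open scoped MatrixGroups
open Fermat.Agent.ES1 (gammaH)
open Fermat.Agent.RT.K5 (HomS tS etaS etaPart thetaN HExpr)
open Fermat.Agent.ES

variable {N M : ℕ} [NeZero N] [hMN : Fact (M ∣ N)] {A : Type} [AddCommGroup A]

/-- `T_ℓ` preserves the parabolic homomorphisms of `Γ₀(N)` -/
theorem rtbb_tS_par (ℓ : ℕ) [NeZero ℓ] (hℓ : ℓ.Prime) (hℓN : ¬ ℓ ∣ N)
    {φ : HomS (gammaH N M (⊤ : Subgroup (ZMod M)ˣ)) A}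
    (hφ : IsParabolicHom (gammaH N M (⊤ : Subgroup (ZMod M)ˣ)) φ) :
    IsParabolicHom (gammaH N M (⊤ : Subgroup (ZMod M)ˣ)) (tS N M ℓ ⊤ A φ) := by
  have : Fact ℓ.Prime := ⟨hℓ⟩
  apply rtbb_parabolic_of_tr
  rw [rtbbTr_tS ℓ hℓN φ]
  exact HeckeP.heckeHom_isParabolicHom hℓN (rtbbTr_parabolic hφ)

/-- **the image of `η` is parabolic** (general coefficients) -/
theorem rtbb_etaS_par_gen (hN : Squarefree N) (ℓ₀ : ℕ) [NeZero ℓ₀] (hℓ₀ : ℓ₀.Prime)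
    (hℓ₀N : ¬ ℓ₀ ∣ N) (hA2 : ∀ a : A, 2 • a = 0 → a = 0) (hAℓ : ∀ a : A, ℓ₀ • a = 0 → a = 0)
    (ψ : HomS (gammaH N M (⊤ : Subgroup (ZMod M)ˣ)) A) :
    IsParabolicHom (gammaH N M (⊤ : Subgroup (ZMod M)ˣ)) (etaS N M ℓ₀ ⊤ A ψ) := by
  apply rtbb_parabolic_of_tr
  have : Fact ℓ₀.Prime := ⟨hℓ₀⟩
  have h2 : rtbbTr N M A (etaS N M ℓ₀ ⊤ A ψ) =
      HeckeP.heckeHom hℓ₀N (rtbbTr N M A ψ) - (ℓ₀ + 1) • rtbbTr N M A ψ := by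
    unfold etaS
    rw [AddMonoidHom.sub_apply, map_sub, rtbbTr_tS ℓ₀ hℓ₀N ψ]
    congr 1
  intro γ hγ
  rw [h2, AddMonoidHom.sub_apply, rtbb_boundary_gen hN hℓ₀N hA2 hAℓ (rtbbTr N M A ψ) γ hγ]
  show (ℓ₀ + 1) • (rtbbTr N M A ψ) (Additive.ofMul γ) -
    (ℓ₀ + 1) • (rtbbTr N M A ψ) (Additive.ofMul γ) = 0
  exact sub_self _

/-- if the image of `θ` is contained in the image of `η`, the `θ`-part is parabolic -/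
theorem rtbb_etaPart_par_of_range (hN : Squarefree N) (ℓ₀ : ℕ) [NeZero ℓ₀] (hℓ₀ : ℓ₀.Prime)
    (hℓ₀N : ¬ ℓ₀ ∣ N) (hA2 : ∀ a : A, 2 • a = 0 → a = 0) (hAℓ : ∀ a : A, ℓ₀ • a = 0 → a = 0)
    (θ : HomS (gammaH N M (⊤ : Subgroup (ZMod M)ˣ)) A →+
      HomS (gammaH N M (⊤ : Subgroup (ZMod M)ˣ)) A)
    (hθ : ∀ φ, ∃ ψ, θ φ = etaS N M ℓ₀ ⊤ A ψ)
    (φ : HomS (gammaH N M (⊤ : Subgroup (ZMod M)ˣ)) A) (hφ : φ ∈ etaPart θ) :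
    IsParabolicHom (gammaH N M (⊤ : Subgroup (ZMod M)ˣ)) φ := by
  obtain ⟨φ', rfl⟩ := rtbb_etaPart_le_range θ φ hφ
  obtain ⟨ψ, hψ⟩ := hθ φ'
  rw [hψ]
  exact rtbb_etaS_par_gen hN ℓ₀ hℓ₀ hℓ₀N hA2 hAℓ ψ

/-- **the `Θ`-part is parabolic**, `Θ = 𝔲 ∘ (T_ℓ₀ − ℓ₀ − 1)`, `𝔲` a Hecke expression -/
theorem rtbb_thetaPart_par {𝒪 : Type} [CommRing 𝒪] [Module 𝒪 A] (hN : Squarefree N) (ℓ₀ : ℕ)
    [NeZero ℓ₀] (hℓ₀ : ℓ₀.Prime) (hℓ₀N : ¬ ℓ₀ ∣ N) (hA2 : ∀ a : A, 2 • a = 0 → a = 0)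
    (hAℓ : ∀ a : A, ℓ₀ • a = 0 → a = 0) (e : HExpr 𝒪) (he : e.IsPrimes)
    (φ : HomS (gammaH N M (⊤ : Subgroup (ZMod M)ˣ)) A)
    (hφ : φ ∈ etaPart (thetaN (e.eval N M) ℓ₀ A ⊤)) :
    IsParabolicHom (gammaH N M (⊤ : Subgroup (ZMod M)ˣ)) φ := by
  refine rtbb_etaPart_par_of_range hN ℓ₀ hℓ₀ hℓ₀N hA2 hAℓ _ (fun φ' => ?_) φ hφ
  refine ⟨((e.eval N M).fam A).op ⊤ φ', ?_⟩
  exact (Fermat.Agent.RT.K5.k5hx_comm_etaS N M A ⊤ e he ℓ₀ hℓ₀ φ').symm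

end Fermat.Agent.RT.Base
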